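/-
P5 [G4] weak Chebotarev, part 2 (helper7): the counting identity.

For a finite Galois extension `M / ℚ` with group `Γ`, a subgroup `H ≤ Γ` with fixed field `E`,
and a finite set `R` of rational primes unramified in `M`:

  `∑_{w | ℓ ∈ R, frob w ∈ H} f(w | ℓ) · ℓ^(-s) = |H| · ∑_{v prime of E, N(v) ∈ R} N(v)^(-s)`.

Ingredients: `N(w ∩ E) = ℓ ⟺ frob w ∈ H` (existence of a Frobenius for the action of `H` over
`𝓞 E`, uniqueness of the Frobenius at an unramified prime) and `∑ e f = |H|` over the fibre.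
-/
import Mathlib

set_option autoImplicit false
set_option linter.unusedSectionVars false

namespace Fermat.Agent.Lib.WeakCheb

open NumberField IsDedekindDomain

section General
variable {K : Type*} [Field K] [NumberField K]

/-- The residue characteristic of a prime of a number field. -/
noncomputable def chr (w : HeightOneSpectrum (𝓞 K)) : ℕ := Ideal.absNorm (w.asIdeal.under ℤ)

theorem under_ne_bot (w : HeightOneSpectrum (𝓞 K)) : w.asIdeal.under ℤ ≠ ⊥ :=
  (w.under ℤ).ne_bot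

theorem under_isMaximal (w : HeightOneSpectrum (𝓞 K)) : (w.asIdeal.under ℤ).IsMaximal :=
  (w.under ℤ).isMaximal

theorem natCard_quot_under (w : HeightOneSpectrum (𝓞 K)) :
    Nat.card (ℤ ⧸ w.asIdeal.under ℤ) = chr w := by
  rw [chr, Ideal.absNorm_apply, Submodule.cardQuot_apply]

theorem under_eq_span (w : HeightOneSpectrum (𝓞 K)) :
    w.asIdeal.under ℤ = Ideal.span {(chr w : ℤ)} := by
  obtain ⟨n, hn⟩ := Submodule.IsPrincipal.principal (w.asIdeal.under ℤ)
  have h1 : w.asIdeal.under ℤ = Ideal.span {n} := hn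
  rw [chr, h1, Ideal.absNorm_span_singleton]
  simp

theorem chr_prime (w : HeightOneSpectrum (𝓞 K)) : (chr w).Prime := by
  have h1 := under_eq_span w
  have h2 : (Ideal.span {(chr w : ℤ)}).IsPrime := h1 ▸ (w.under ℤ).isPrime
  have h3 : (chr w : ℤ) ≠ 0 := by
    intro h0
    apply under_ne_bot w
    rw [h1, h0]
    simp
  rw [Ideal.span_singleton_prime h3] at h2
  exact Nat.prime_iff_prime_int.mpr h2

theorem absNorm_eq_chr_pow (w : HeightOneSpectrum (𝓞 K)) :
    Ideal.absNorm w.asIdeal = chr w ^ (w.asIdeal.inertiaDeg ℤ) := by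
  have := Ideal.absNorm_pow_inertiaDeg (w.asIdeal.under ℤ) w.asIdeal
  rw [chr, this]

theorem inertiaDeg_pos (w : HeightOneSpectrum (𝓞 K)) : 0 < w.asIdeal.inertiaDeg ℤ :=
  Ideal.inertiaDeg_pos _ _

theorem natCast_chr_mem (w : HeightOneSpectrum (𝓞 K)) : (chr w : 𝓞 K) ∈ w.asIdeal := by
  have h1 : (chr w : ℤ) ∈ w.asIdeal.under ℤ := by
    rw [under_eq_span]
    exact Ideal.subset_span rfl
  rw [Ideal.under_def, Ideal.mem_comap] at h1
  simpa using h1

/-- If the norm is a prime number then it is the residue characteristic and the degree is one. -/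
theorem chr_eq_of_prime_absNorm (w : HeightOneSpectrum (𝓞 K))
    (h : (Ideal.absNorm w.asIdeal).Prime) :
    chr w = Ideal.absNorm w.asIdeal ∧ w.asIdeal.inertiaDeg ℤ = 1 := by
  have h1 := absNorm_eq_chr_pow w
  have h2 := (Nat.Prime.pow_eq_iff h).mp h1.symm
  exact ⟨h2.1, h2.2⟩


theorem finite_absNorm_mem (R : Finset ℕ) :
    {v : HeightOneSpectrum (𝓞 K) | Ideal.absNorm v.asIdeal ∈ R}.Finite := by
  have h1 : {I : Ideal (𝓞 K) | Ideal.absNorm I ∈ R}.Finite := by
    have : {I : Ideal (𝓞 K) | Ideal.absNorm I ∈ R} = ⋃ n ∈ R, {I | Ideal.absNorm I = n} := by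
      ext I
      simp
    rw [this]
    exact Set.Finite.biUnion R.finite_toSet fun n _ => Ideal.finite_setOfPred_absNorm_eq n
  exact Set.Finite.preimage (f := HeightOneSpectrum.asIdeal)
    (fun a _ b _ hab => HeightOneSpectrum.ext hab) h1

/-- The primes of `K` whose norm lies in `R`. -/
noncomputable def primesNorm (K : Type*) [Field K] [NumberField K] (R : Finset ℕ) :
    Finset (HeightOneSpectrum (𝓞 K)) := (finite_absNorm_mem (K := K) R).toFinset

theorem mem_primesNorm {R : Finset ℕ} {v : HeightOneSpectrum (𝓞 K)} :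
    v ∈ primesNorm K R ↔ Ideal.absNorm v.asIdeal ∈ R := by
  simp [primesNorm]

theorem finite_chr_mem (R : Finset ℕ) :
    {w : HeightOneSpectrum (𝓞 K) | chr w ∈ R}.Finite := by
  have h1 : {w : HeightOneSpectrum (𝓞 K) | chr w ∈ R} ⊆
      ⋃ n ∈ R.filter Nat.Prime,
        {w : HeightOneSpectrum (𝓞 K) | w.asIdeal ∣ Ideal.span {(n : 𝓞 K)}} := by
    intro w hw
    simp only [Set.mem_iUnion, Set.mem_ofPred_eq, Finset.mem_filter]
    refine ⟨chr w, ⟨hw, chr_prime w⟩, ?_⟩
    rw [Ideal.dvd_span_singleton]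
    exact natCast_chr_mem w
  refine Set.Finite.subset (Set.Finite.biUnion (Finset.finite_toSet _) fun n hn => ?_) h1
  have hn' : n.Prime := (Finset.mem_filter.mp hn).2
  apply Ideal.finite_factors
  rw [Ne, Ideal.zero_eq_bot, Ideal.span_singleton_eq_bot]
  exact_mod_cast hn'.ne_zero

/-- The primes of `K` whose residue characteristic lies in `R`. -/
noncomputable def primesChr (K : Type*) [Field K] [NumberField K] (R : Finset ℕ) :
    Finset (HeightOneSpectrum (𝓞 K)) := (finite_chr_mem (K := K) R).toFinset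

theorem mem_primesChr {R : Finset ℕ} {w : HeightOneSpectrum (𝓞 K)} :
    w ∈ primesChr K R ↔ chr w ∈ R := by
  simp [primesChr]

/-- The partial sum `∑ N(v)^(-s)` over the primes whose norm lies in `R`. -/
noncomputable def dSum (K : Type*) [Field K] [NumberField K] (s : ℝ) (R : Finset ℕ) : ℝ :=
  ∑ v ∈ primesNorm K R, (Ideal.absNorm v.asIdeal : ℝ) ^ (-s)

end General

section Galois

variable {M : Type*} [Field M] [NumberField M] [IsGalois ℚ M]

/-- The (chosen) arithmetic Frobenius at a prime of a Galois number field. -/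
noncomputable def frob (w : HeightOneSpectrum (𝓞 M)) : M ≃ₐ[ℚ] M :=
  arithFrobAt ℤ (M ≃ₐ[ℚ] M) w.asIdeal

theorem isArithFrobAt_frob (w : HeightOneSpectrum (𝓞 M)) :
    IsArithFrobAt ℤ (frob w) w.asIdeal :=
  IsArithFrobAt.arithFrobAt ℤ (M ≃ₐ[ℚ] M) w.asIdeal

theorem frob_spec (w : HeightOneSpectrum (𝓞 M)) (x : 𝓞 M) :
    frob w • x - x ^ chr w ∈ w.asIdeal := by
  have h := isArithFrobAt_frob w x
  rw [natCard_quot_under] at h
  exact h

/-- `w` is unramified over `ℚ`. -/
def Unram (w : HeightOneSpectrum (𝓞 M)) : Prop := Algebra.IsUnramifiedAt ℤ w.asIdeal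

/-- Uniqueness of the Frobenius at an unramified prime. -/
theorem eq_frob_of_unram (w : HeightOneSpectrum (𝓞 M)) (hw : Unram w) (σ : M ≃ₐ[ℚ] M)
    (hσ : ∀ x : 𝓞 M, σ • x - x ^ chr w ∈ w.asIdeal) : σ = frob w := by
  have h1 : IsArithFrobAt ℤ σ w.asIdeal := by
    intro x
    rw [natCard_quot_under]
    exact hσ x
  have h2 := isArithFrobAt_frob w
  have : Algebra.IsUnramifiedAt ℤ w.asIdeal := hw
  have h3 : MulSemiringAction.toAlgHom ℤ (𝓞 M) σ = MulSemiringAction.toAlgHom ℤ (𝓞 M) (frob w) :=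
    AlgHom.IsArithFrobAt.eq_of_isUnramifiedAt h1 h2 (by
      intro x hx
      rw [mem_nonZeroDivisors_iff_ne_zero]
      rintro rfl
      exact hx (zero_mem _))
  apply AlgEquiv.ext
  intro y
  obtain ⟨a, b, hb, rfl⟩ := IsFractionRing.div_surjective (A := 𝓞 M) y
  have ha := congrArg (fun f => ((f a : 𝓞 M) : M)) h3
  have hb' := congrArg (fun f => ((f b : 𝓞 M) : M)) h3
  simp only [MulSemiringAction.toAlgHom_apply] at ha hb'
  rw [map_div₀, map_div₀]
  exact congrArg₂ (· / ·) ha hb'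


/-- If every residue class satisfies `y ^ m = y` then the norm is at most `m`. -/
theorem absNorm_le_of_forall_sub_pow_mem {K : Type*} [Field K] [NumberField K]
    (v : HeightOneSpectrum (𝓞 K)) (m : ℕ) (hm : 1 < m)
    (h : ∀ x : 𝓞 K, x - x ^ m ∈ v.asIdeal) : Ideal.absNorm v.asIdeal ≤ m := by
  classical
  have hmax : v.asIdeal.IsMaximal := v.isMaximal
  let _ : Field (𝓞 K ⧸ v.asIdeal) := Ideal.Quotient.field v.asIdeal
  have : Finite (𝓞 K ⧸ v.asIdeal) := Ideal.finiteQuotientOfFreeOfNeBot v.asIdeal v.ne_bot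
  let _ : Fintype (𝓞 K ⧸ v.asIdeal) := Fintype.ofFinite _
  have hroot : ∀ y : 𝓞 K ⧸ v.asIdeal, y ^ m = y := by
    intro y
    obtain ⟨x, rfl⟩ := Ideal.Quotient.mk_surjective y
    have := h x
    rw [← Ideal.Quotient.eq_zero_iff_mem, map_sub, map_pow, sub_eq_zero] at this
    exact this.symm
  have hP0 : (Polynomial.X ^ m - Polynomial.X : Polynomial (𝓞 K ⧸ v.asIdeal)) ≠ 0 :=
    FiniteField.X_pow_card_sub_X_ne_zero (𝓞 K ⧸ v.asIdeal) hm
  have hdeg : (Polynomial.X ^ m - Polynomial.X : Polynomial (𝓞 K ⧸ v.asIdeal)).natDegree = m :=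
    FiniteField.X_pow_card_sub_X_natDegree_eq (𝓞 K ⧸ v.asIdeal) hm
  have hsub : (Finset.univ : Finset (𝓞 K ⧸ v.asIdeal)) ⊆
      (Polynomial.X ^ m - Polynomial.X : Polynomial (𝓞 K ⧸ v.asIdeal)).roots.toFinset := by
    intro y _
    rw [Multiset.mem_toFinset, Polynomial.mem_roots hP0]
    simp [Polynomial.IsRoot, hroot y]
  have hNQ : Ideal.absNorm v.asIdeal = Fintype.card (𝓞 K ⧸ v.asIdeal) := by
    rw [Ideal.absNorm_apply, Submodule.cardQuot_apply, Nat.card_eq_fintype_card]
  rw [hNQ]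
  calc Fintype.card (𝓞 K ⧸ v.asIdeal) = (Finset.univ : Finset (𝓞 K ⧸ v.asIdeal)).card := rfl
    _ ≤ _ := Finset.card_le_card hsub
    _ ≤ (Polynomial.X ^ m - Polynomial.X : Polynomial (𝓞 K ⧸ v.asIdeal)).roots.card :=
        Multiset.toFinset_card_le _
    _ ≤ _ := Polynomial.card_roots' _
    _ = m := hdeg

section Fixed

variable {M : Type*} [Field M] [NumberField M] [IsGalois ℚ M] (H : Subgroup (M ≃ₐ[ℚ] M))

/-- The fixed field of a subgroup. -/
abbrev fixF : IntermediateField ℚ M := FixedPoints.intermediateField H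

theorem isGaloisGroup_fixF : IsGaloisGroup H (𝓞 (fixF H)) (𝓞 M) :=
  IsGaloisGroup.of_isFractionRing H (𝓞 (fixF H)) (𝓞 M) (fixF H) M

attribute [local instance] isGaloisGroup_fixF

theorem card_eq_finrank_fixF : Nat.card H = Module.finrank (fixF H) M :=
  (IsGaloisGroup.finrank_fixedPoints_eq_card_subgroup (M ≃ₐ[ℚ] M) ℚ M H).symm

/-- The prime of the fixed field below `w`. -/
noncomputable abbrev below (w : HeightOneSpectrum (𝓞 M)) : HeightOneSpectrum (𝓞 (fixF H)) :=
  w.under (𝓞 (fixF H))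

theorem chr_below (w : HeightOneSpectrum (𝓞 M)) : chr (below H w) = chr w := by
  rw [chr, chr]
  congr 1

theorem smul_algebraMap_of_mem {σ : M ≃ₐ[ℚ] M} (hσ : σ ∈ H) (x : 𝓞 (fixF H)) :
    σ • algebraMap (𝓞 (fixF H)) (𝓞 M) x = algebraMap (𝓞 (fixF H)) (𝓞 M) x := by
  apply RingOfIntegers.ext
  have hx : ((x : fixF H) : M) ∈ fixF H := (x : fixF H).2
  exact hx ⟨σ, hσ⟩

/-- Claim A, `⇐`: if the Frobenius at `w` lies in `H`, the prime below `w` has degree one. -/
theorem absNorm_below_of_frob_mem (w : HeightOneSpectrum (𝓞 M)) (h : frob w ∈ H) :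
    Ideal.absNorm (below H w).asIdeal = chr w := by
  have hp := chr_prime w
  have h1 : Ideal.absNorm (below H w).asIdeal ≤ chr w := by
    apply absNorm_le_of_forall_sub_pow_mem _ _ hp.one_lt
    intro x
    have h2 := frob_spec w (algebraMap (𝓞 (fixF H)) (𝓞 M) x)
    rw [smul_algebraMap_of_mem H h, ← map_pow, ← map_sub] at h2
    exact h2
  have h3 := absNorm_eq_chr_pow (below H w)
  rw [chr_below] at h3
  have h4 : chr w ≤ Ideal.absNorm (below H w).asIdeal := by
    rw [h3]
    exact Nat.le_self_pow (inertiaDeg_pos _).ne' _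
  omega

/-- Claim A, `⇒`: at an unramified prime `w` whose prime below has degree one, the Frobenius
lies in `H`. -/
theorem frob_mem_of_absNorm_below (w : HeightOneSpectrum (𝓞 M)) (hw : Unram w)
    (h : Ideal.absNorm (below H w).asIdeal = chr w) : frob w ∈ H := by
  obtain ⟨σ, hσ⟩ := IsArithFrobAt.exists_of_isInvariant (𝓞 (fixF H)) H w.asIdeal
  have h1 : Nat.card (𝓞 (fixF H) ⧸ w.asIdeal.under (𝓞 (fixF H))) = chr w := by
    rw [← h, Ideal.absNorm_apply, Submodule.cardQuot_apply]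
    rfl
  have h2 : (σ : M ≃ₐ[ℚ] M) = frob w := by
    apply eq_frob_of_unram w hw
    intro x
    have := hσ x
    rw [h1] at this
    exact this
  rw [← h2]
  exact σ.2


/-- The fibre sum: over a degree-one prime `v` of the fixed field all of whose extensions are
unramified over `ℚ`, the absolute residue degrees of the primes above `v` add up to `|H|`. -/
theorem sum_inertiaDeg_primesOver (v : HeightOneSpectrum (𝓞 (fixF H)))
    (hv : (Ideal.absNorm v.asIdeal).Prime)
    (hun : ∀ w : HeightOneSpectrum (𝓞 M), below H w = v → Unram w) :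
    ∑ q : v.asIdeal.primesOver (𝓞 M), q.1.inertiaDeg ℤ = Nat.card H := by
  rw [← Ideal.sum_ramification_inertia_eq_card v.asIdeal (𝓞 M) (G := H)]
  apply Finset.sum_congr rfl
  rintro ⟨q, hq1, hq2⟩ -
  have := hq1
  have := hq2
  have hq0 : q ≠ ⊥ := Ideal.ne_bot_of_mem_primesOver v.ne_bot ⟨hq1, hq2⟩
  let w : HeightOneSpectrum (𝓞 M) := ⟨q, hq1, hq0⟩
  have hwv : below H w = v := by
    apply HeightOneSpectrum.ext
    exact (hq2.over).symm
  have hw : Unram w := hun w hwv
  have hf1 : v.asIdeal.inertiaDeg ℤ = 1 := (chr_eq_of_prime_absNorm v hv).2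
  have hf : q.inertiaDeg ℤ = v.asIdeal.inertiaDeg ℤ * q.inertiaDeg (𝓞 (fixF H)) :=
    Ideal.inertiaDeg_tower v.asIdeal q
  have he : q.ramificationIdx ℤ = v.asIdeal.ramificationIdx ℤ * q.ramificationIdx (𝓞 (fixF H)) :=
    Ideal.ramificationIdx_tower v.asIdeal q
  have he1 : q.ramificationIdx ℤ = 1 := Ideal.ramificationIdx_eq_one_iff.mpr hw
  have he2 : q.ramificationIdx (𝓞 (fixF H)) = 1 := by
    rw [he1] at he
    exact Nat.eq_one_of_mul_eq_one_left he.symm
  show q.inertiaDeg ℤ = q.ramificationIdx (𝓞 (fixF H)) * q.inertiaDeg (𝓞 (fixF H))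
  rw [hf, hf1, he2]


/-- The weight of a prime of `M`: absolute residue degree times `ℓ^(-s)`. -/
noncomputable def wt (w : HeightOneSpectrum (𝓞 M)) (s : ℝ) : ℝ :=
  (w.asIdeal.inertiaDeg ℤ : ℝ) * (chr w : ℝ) ^ (-s)

theorem wt_nonneg (w : HeightOneSpectrum (𝓞 M)) (s : ℝ) : 0 ≤ wt w s :=
  mul_nonneg (Nat.cast_nonneg _) (Real.rpow_nonneg (Nat.cast_nonneg _) _)

theorem wt_pos (w : HeightOneSpectrum (𝓞 M)) (s : ℝ) : 0 < wt w s :=
  mul_pos (Nat.cast_pos.mpr (inertiaDeg_pos w))
    (Real.rpow_pos_of_pos (Nat.cast_pos.mpr (chr_prime w).pos) _)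

variable (M) in
/-- All primes of `M` above the members of `R` are unramified over `ℚ`. -/
def GoodSet (R : Finset ℕ) : Prop := ∀ w : HeightOneSpectrum (𝓞 M), chr w ∈ R → Unram w

open scoped Classical in
/-- **The counting identity**: the weighted sum over the primes of `M` above `R` whose Frobenius
lies in `H` is `|H|` times the sum over the degree-one primes of the fixed field of `H`. -/
theorem sum_wt_frob_mem (s : ℝ) (R : Finset ℕ) (hR : GoodSet M R) (hRp : ∀ ℓ ∈ R, ℓ.Prime) :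
    ∑ w ∈ (primesChr M R).filter (fun w => frob w ∈ H), wt w s
      = (Nat.card H : ℝ) * dSum (fixF H) s R := by
  classical
  set T := (primesChr M R).filter (fun w => frob w ∈ H) with hT
  have hmaps : ∀ w ∈ T, below H w ∈ primesNorm (fixF H) R := by
    intro w hw
    rw [hT, Finset.mem_filter, mem_primesChr] at hw
    rw [mem_primesNorm, absNorm_below_of_frob_mem H w hw.2]
    exact hw.1
  rw [← Finset.sum_fiberwise_of_maps_to hmaps, dSum, Finset.mul_sum]
  apply Finset.sum_congr rfl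
  intro v hv
  rw [mem_primesNorm] at hv
  have hvp : (Ideal.absNorm v.asIdeal).Prime := hRp _ hv
  have hchrv : chr v = Ideal.absNorm v.asIdeal := (chr_eq_of_prime_absNorm v hvp).1
  have hconst : ∀ w ∈ T.filter (fun w => below H w = v),
      wt w s = (w.asIdeal.inertiaDeg ℤ : ℝ) * (Ideal.absNorm v.asIdeal : ℝ) ^ (-s) := by
    intro w hw
    rw [Finset.mem_filter, hT, Finset.mem_filter] at hw
    obtain ⟨⟨-, hfr⟩, rfl⟩ := hw
    rw [wt, absNorm_below_of_frob_mem H w hfr]
  rw [Finset.sum_congr rfl hconst, ← Finset.sum_mul]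
  congr 1
  have hun : ∀ w : HeightOneSpectrum (𝓞 M), below H w = v → Unram w := by
    intro w hw
    apply hR
    rw [← chr_below H w, hw, hchrv]
    exact hv
  rw [← sum_inertiaDeg_primesOver H v hvp hun, Nat.cast_sum]
  refine Finset.sum_bij
    (fun w hw => (⟨w.asIdeal, w.isPrime, ⟨by rw [← (Finset.mem_filter.mp hw).2]; rfl⟩⟩ :
      v.asIdeal.primesOver (𝓞 M))) (fun _ _ => Finset.mem_univ _) ?_ ?_ (fun _ _ => rfl)
  · intro w₁ _ w₂ _ h12
    exact HeightOneSpectrum.ext (congrArg Subtype.val h12)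
  · rintro ⟨q, hq1, hq2⟩ -
    have hq0 : q ≠ ⊥ := Ideal.ne_bot_of_mem_primesOver v.ne_bot ⟨hq1, hq2⟩
    let w : HeightOneSpectrum (𝓞 M) := ⟨q, hq1, hq0⟩
    have hwv : below H w = v := HeightOneSpectrum.ext (hq2.over).symm
    have hchr : chr w = Ideal.absNorm v.asIdeal := by rw [← chr_below H w, hwv, hchrv]
    have hwR : chr w ∈ R := hchr ▸ hv
    have hfr : frob w ∈ H := by
      apply frob_mem_of_absNorm_below H w (hR w hwR)
      rw [hwv, hchr]
    refine ⟨w, ?_, rfl⟩
    rw [Finset.mem_filter, hT, Finset.mem_filter, mem_primesChr]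
    exact ⟨⟨hwR, hfr⟩, hwv⟩

end Fixed
end Galois
end Fermat.Agent.Lib.WeakCheb
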