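/-
P5 [G4] weak Chebotarev, part 3 (helper7): the analytic input in the form used by the counting
argument.  For a number field `K`, `dSum K s R = ∑ N(v)^(-s)` over the primes `v` of `K` whose
norm lies in the finite set `R`:

* `exists_dSum_le`  : `dSum K s R ≤ log (1/(s-1)) + C` for all `R`;
* `exists_le_dSum`  : for each `s` some `R` consisting of prime numbers outside a given finite
  set `B` has `log (1/(s-1)) - C ≤ dSum K s R`.

Both are repackagings of the landed `Lib/IdealEulerBounds` (helper17, helper27).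
-/
import Mathlib
import Fermat.Agent.Lib.IdealEulerBounds
import Fermat.Agent.Lib.WeakCheb.Count

set_option autoImplicit false
set_option linter.unusedSectionVars false

namespace Fermat.Agent.Lib.WeakCheb

open NumberField IsDedekindDomain

variable (K : Type*) [Field K] [NumberField K]

theorem absNorm_rpow_nonneg (v : HeightOneSpectrum (𝓞 K)) (s : ℝ) :
    0 ≤ (Ideal.absNorm v.asIdeal : ℝ) ^ (-s) :=
  Real.rpow_nonneg (Nat.cast_nonneg _) _

theorem one_le_absNorm (v : HeightOneSpectrum (𝓞 K)) : 1 ≤ Ideal.absNorm v.asIdeal := by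
  rw [absNorm_eq_chr_pow]
  exact Nat.one_le_pow _ _ (chr_prime v).pos

theorem absNorm_rpow_le_one (v : HeightOneSpectrum (𝓞 K)) {s : ℝ} (hs : 0 ≤ s) :
    (Ideal.absNorm v.asIdeal : ℝ) ^ (-s) ≤ 1 :=
  Real.rpow_le_one_of_one_le_of_nonpos (by exact_mod_cast one_le_absNorm K v) (by linarith)

theorem dSum_mono (s : ℝ) {R R' : Finset ℕ} (h : R ⊆ R') : dSum K s R ≤ dSum K s R' := by
  apply Finset.sum_le_sum_of_subset_of_nonneg
  · intro v hv
    rw [mem_primesNorm] at hv ⊢
    exact h hv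
  · intro v _ _
    exact absNorm_rpow_nonneg K v s

/-- Upper bound, uniform in the finite set `R`. -/
theorem exists_dSum_le : ∃ C : ℝ, ∀ s : ℝ, 1 < s → s ≤ 2 → ∀ R : Finset ℕ,
    dSum K s R ≤ Real.log (1 / (s - 1)) + C := by
  obtain ⟨C, hC⟩ := IdealEulerBounds.exists_sum_primes_le K
  exact ⟨C, fun s h1 h2 R => hC s h1 h2 _⟩

/-- Lower bound: for each `s` some finite set `R` of prime numbers outside `B` carries almost all
of `log (1/(s-1))`. -/
theorem exists_le_dSum (B : Finset ℕ) : ∃ C : ℝ, ∀ s : ℝ, 1 < s → s ≤ 2 →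
    ∃ R : Finset ℕ, (∀ ℓ ∈ R, ℓ.Prime ∧ ℓ ∉ B) ∧ Real.log (1 / (s - 1)) - C ≤ dSum K s R := by
  classical
  obtain ⟨C₀, h₀⟩ := IdealEulerBounds.exists_le_sum_primes K
  obtain ⟨C₁, h₁⟩ := IdealEulerBounds.exists_sum_nonprime_le K
  refine ⟨C₀ + C₁ + ((primesNorm K B).card : ℝ), fun s hs1 hs2 => ?_⟩
  obtain ⟨T, hT⟩ := h₀ s hs1 hs2
  set f : HeightOneSpectrum (𝓞 K) → ℝ := fun v => (Ideal.absNorm v.asIdeal : ℝ) ^ (-s) with hf
  set T₁ := T.filter (fun v => ¬ (Ideal.absNorm v.asIdeal).Prime) with hT₁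
  set Tp := T.filter (fun v => (Ideal.absNorm v.asIdeal).Prime) with hTp
  set T₂ := Tp.filter (fun v => Ideal.absNorm v.asIdeal ∈ B) with hT₂
  set T₃ := Tp.filter (fun v => Ideal.absNorm v.asIdeal ∉ B) with hT₃
  have hsplit1 : ∑ v ∈ T, f v = ∑ v ∈ Tp, f v + ∑ v ∈ T₁, f v :=
    (Finset.sum_filter_add_sum_filter_not T _ f).symm
  have hsplit2 : ∑ v ∈ Tp, f v = ∑ v ∈ T₂, f v + ∑ v ∈ T₃, f v :=
    (Finset.sum_filter_add_sum_filter_not Tp _ f).symm
  have hb1 : ∑ v ∈ T₁, f v ≤ C₁ :=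
    h₁ s hs1.le T₁ (fun v hv => (Finset.mem_filter.mp hv).2)
  have hb2 : ∑ v ∈ T₂, f v ≤ ((primesNorm K B).card : ℝ) := by
    calc ∑ v ∈ T₂, f v ≤ ∑ v ∈ primesNorm K B, f v := by
          apply Finset.sum_le_sum_of_subset_of_nonneg
          · intro v hv
            rw [mem_primesNorm]
            exact (Finset.mem_filter.mp hv).2
          · intro v _ _
            exact absNorm_rpow_nonneg K v s
      _ ≤ ∑ _v ∈ primesNorm K B, (1 : ℝ) :=
          Finset.sum_le_sum fun v _ => absNorm_rpow_le_one K v (by linarith)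
      _ = ((primesNorm K B).card : ℝ) := by simp
  set R : Finset ℕ := T₃.image (fun v => Ideal.absNorm v.asIdeal) with hR
  have hb3 : ∑ v ∈ T₃, f v ≤ dSum K s R := by
    apply Finset.sum_le_sum_of_subset_of_nonneg
    · intro v hv
      rw [mem_primesNorm]
      exact Finset.mem_image_of_mem _ hv
    · intro v _ _
      exact absNorm_rpow_nonneg K v s
  refine ⟨R, ?_, ?_⟩
  · intro ℓ hℓ
    obtain ⟨v, hv, rfl⟩ := Finset.mem_image.mp hℓ
    rw [hT₃, Finset.mem_filter, hTp, Finset.mem_filter] at hv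
    exact ⟨hv.1.2, hv.2⟩
  · have : Real.log (1 / (s - 1)) - C₀ ≤ ∑ v ∈ T, f v := hT
    linarith

end Fermat.Agent.Lib.WeakCheb
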