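/-
P5 [G4] weak Chebotarev, part 1 (helper7): the abstract "Möbius inversion on cyclic subgroups".

If a real weight `a` on a finite group satisfies `∑_{x ∈ ⟨y⟩} a x ≈ |⟨y⟩| · lam` for every cyclic
subgroup, then `∑_{x : ⟨x⟩ = ⟨y⟩} a x ≈ #{x : ⟨x⟩ = ⟨y⟩} · lam` for every `y` (with a worse error).
-/
import Mathlib

set_option autoImplicit false

namespace Fermat.Agent.Lib.WeakCheb

open Finset

open scoped Classical in
/-- The generators of the cyclic subgroup `⟨y⟩`. -/
noncomputable def gens {G : Type*} [Group G] [Fintype G] (y : G) : Finset G :=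
  univ.filter fun x => Subgroup.zpowers x = Subgroup.zpowers y

open scoped Classical in
/-- The elements of the cyclic subgroup `⟨y⟩`. -/
noncomputable def cyc {G : Type*} [Group G] [Fintype G] (y : G) : Finset G :=
  univ.filter fun x => x ∈ Subgroup.zpowers y

section

variable {G : Type*} [Group G] [Fintype G]

theorem mem_gens {x y : G} : x ∈ gens y ↔ Subgroup.zpowers x = Subgroup.zpowers y := by
  classical
  simp [gens]

theorem mem_cyc {x y : G} : x ∈ cyc y ↔ x ∈ Subgroup.zpowers y := by
  classical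
  simp [cyc]

theorem self_mem_gens (y : G) : y ∈ gens y := mem_gens.mpr rfl

theorem gens_subset_cyc (y : G) : gens y ⊆ cyc y := by
  intro x hx
  rw [mem_gens] at hx
  rw [mem_cyc, ← hx]
  exact Subgroup.mem_zpowers x

theorem card_cyc (y : G) : (cyc y).card = orderOf y := by
  classical
  rw [← Nat.card_zpowers, Nat.card_eq_fintype_card, Fintype.card_subtype]
  rfl

theorem gens_eq_of_mem {x y : G} (h : x ∈ gens y) : gens x = gens y := by
  classical
  rw [mem_gens] at h
  ext z
  rw [mem_gens, mem_gens, h]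

theorem orderOf_lt_of_mem_cyc_of_not_mem_gens {x y : G} (h1 : x ∈ cyc y) (h2 : x ∉ gens y) :
    orderOf x < orderOf y := by
  rw [mem_cyc] at h1
  rw [mem_gens] at h2
  have hle : Subgroup.zpowers x ≤ Subgroup.zpowers y := by
    rw [Subgroup.zpowers_le]
    exact h1
  have hdvd : orderOf x ∣ orderOf y := orderOf_dvd_of_mem_zpowers h1
  have hpos : 0 < orderOf y := orderOf_pos y
  rcases (Nat.le_of_dvd hpos hdvd).lt_or_eq with h | h
  · exact h
  · exfalso
    apply h2
    apply Subgroup.eq_of_le_of_card_ge hle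
    rw [Nat.card_zpowers, Nat.card_zpowers, h]

/-- **Möbius inversion on cyclic subgroups**, with error terms. -/
theorem abs_sum_gens_le (a : G → ℝ) (lam c : ℝ) (hc : 0 ≤ c)
    (h : ∀ y : G, |∑ x ∈ cyc y, a x - (orderOf y : ℝ) * lam| ≤ c) (y : G) :
    |∑ x ∈ gens y, a x - ((gens y).card : ℝ) * lam|
      ≤ c * ((Fintype.card G : ℝ) + 1) ^ orderOf y := by
  classical
  -- reduce to `b := a - lam`
  set b : G → ℝ := fun x => a x - lam with hb
  have hsum : ∀ s : Finset G, ∑ x ∈ s, b x = ∑ x ∈ s, a x - (s.card : ℝ) * lam := by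
    intro s
    simp [hb, Finset.sum_sub_distrib]
  have h' : ∀ y : G, |∑ x ∈ cyc y, b x| ≤ c := by
    intro y
    rw [hsum, card_cyc]
    exact h y
  rw [← hsum]
  set N : ℝ := (Fintype.card G : ℝ) + 1 with hN
  have hN1 : (1 : ℝ) ≤ N := by
    rw [hN]
    have : (0 : ℝ) ≤ (Fintype.card G : ℝ) := Nat.cast_nonneg _
    linarith
  -- strong induction on the order
  suffices H : ∀ n : ℕ, ∀ y : G, orderOf y = n → |∑ x ∈ gens y, b x| ≤ c * N ^ n from
    H (orderOf y) y rfl
  intro n
  induction n using Nat.strong_induction_on with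
  | _ n ih =>
    intro y hy
    have hn : 0 < n := hy ▸ orderOf_pos y
    -- split the cyclic group
    have hsplit : ∑ x ∈ cyc y, b x
        = ∑ x ∈ gens y, b x + ∑ x ∈ cyc y \ gens y, b x := by
      rw [add_comm]
      exact (Finset.sum_sdiff (gens_subset_cyc y)).symm
    -- the rest, fibred over the classes
    set rest := cyc y \ gens y with hrest
    set t : Finset (Finset G) := rest.image gens with ht
    have hfib : ∑ x ∈ rest, b x = ∑ C ∈ t, ∑ x ∈ rest.filter (fun x => gens x = C), b x :=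
      (Finset.sum_fiberwise_of_maps_to (fun x hx => Finset.mem_image_of_mem gens hx) b).symm
    have hfilt : ∀ C ∈ t, ∃ x₀ ∈ rest, C = gens x₀ ∧ rest.filter (fun x => gens x = C) = gens x₀ := by
      intro C hC
      obtain ⟨x₀, hx₀, rfl⟩ := Finset.mem_image.mp hC
      refine ⟨x₀, hx₀, rfl, ?_⟩
      ext z
      rw [Finset.mem_filter]
      constructor
      · rintro ⟨-, hz⟩
        rw [← hz]
        exact self_mem_gens z
      · intro hz
        refine ⟨?_, gens_eq_of_mem hz⟩
        rw [hrest, Finset.mem_sdiff] at hx₀ ⊢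
        rw [mem_gens] at hz
        constructor
        · rw [mem_cyc]
          have h1 : z ∈ Subgroup.zpowers x₀ := hz ▸ Subgroup.mem_zpowers z
          have h2 : Subgroup.zpowers x₀ ≤ Subgroup.zpowers y := by
            rw [Subgroup.zpowers_le]
            exact mem_cyc.mp hx₀.1
          exact h2 h1
        · intro hzy
          apply hx₀.2
          rw [mem_gens] at hzy ⊢
          rw [← hz, hzy]
    have hbound : ∀ C ∈ t, |∑ x ∈ rest.filter (fun x => gens x = C), b x| ≤ c * N ^ (n - 1) := by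
      intro C hC
      obtain ⟨x₀, hx₀, -, hfe⟩ := hfilt C hC
      rw [hfe]
      rw [hrest, Finset.mem_sdiff] at hx₀
      have hlt : orderOf x₀ < n := hy ▸ orderOf_lt_of_mem_cyc_of_not_mem_gens hx₀.1 hx₀.2
      refine (ih (orderOf x₀) hlt x₀ rfl).trans ?_
      apply mul_le_mul_of_nonneg_left _ hc
      exact pow_le_pow_right₀ hN1 (by omega)
    have hcard : (t.card : ℝ) ≤ (Fintype.card G : ℝ) := by
      have h1 : t.card ≤ rest.card := Finset.card_image_le
      have h2 : rest.card ≤ Fintype.card G := Finset.card_le_univ _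
      exact_mod_cast h1.trans h2
    have hrestle : |∑ x ∈ rest, b x| ≤ (Fintype.card G : ℝ) * (c * N ^ (n - 1)) := by
      rw [hfib]
      calc |∑ C ∈ t, ∑ x ∈ rest.filter (fun x => gens x = C), b x|
          ≤ ∑ C ∈ t, |∑ x ∈ rest.filter (fun x => gens x = C), b x| := Finset.abs_sum_le_sum_abs _ _
        _ ≤ ∑ _C ∈ t, c * N ^ (n - 1) := Finset.sum_le_sum hbound
        _ = (t.card : ℝ) * (c * N ^ (n - 1)) := by rw [Finset.sum_const, nsmul_eq_mul]
        _ ≤ (Fintype.card G : ℝ) * (c * N ^ (n - 1)) := by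
            apply mul_le_mul_of_nonneg_right hcard
            exact mul_nonneg hc (pow_nonneg (by linarith) _)
    have hmain : ∑ x ∈ gens y, b x = ∑ x ∈ cyc y, b x - ∑ x ∈ rest, b x := by
      rw [hsplit]; ring
    have hpow : N ^ n = N * N ^ (n - 1) := by
      rw [← pow_succ']
      congr 1
      omega
    have hp1 : (1 : ℝ) ≤ N ^ (n - 1) := one_le_pow₀ hN1
    calc |∑ x ∈ gens y, b x| = |∑ x ∈ cyc y, b x - ∑ x ∈ rest, b x| := by rw [hmain]
      _ ≤ |∑ x ∈ cyc y, b x| + |∑ x ∈ rest, b x| := abs_sub _ _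
      _ ≤ c + (Fintype.card G : ℝ) * (c * N ^ (n - 1)) := add_le_add (h' y) hrestle
      _ ≤ c * N ^ (n - 1) + (Fintype.card G : ℝ) * (c * N ^ (n - 1)) := by
          have : c ≤ c * N ^ (n - 1) := le_mul_of_one_le_right hc hp1
          linarith
      _ = c * N ^ n := by rw [hpow, hN]; ring

end

end Fermat.Agent.Lib.WeakCheb
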