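/-
P5 [G4] weak Chebotarev (helper7): the finite-level interface between the analytic half
(helper7: `Lib/WeakCheb/*`) and the lift to `AlgebraicClosure ℚ` (helper53).
-/
import Mathlib

set_option autoImplicit false

namespace Fermat.Agent.Lib.WeakCheb

open NumberField

/-- **Finite-level weak Chebotarev, Frobenius form.**  In a finite Galois extension `M / ℚ`, for
every `g ∈ Gal(M/ℚ)` and every finite set `S` of integers there are a rational prime `ℓ ∉ S` and a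
nonzero prime `w` of `𝓞 M` above `ℓ`, unramified over `ℤ`, such that `g` is a power of EVERY
`σ ∈ Gal(M/ℚ)` which is a Frobenius at `w` (i.e. `σ x ≡ x ^ ℓ mod w` on `𝓞 M`). -/
def FrobGenStmt : Prop :=
  ∀ (M : Type) [Field M] [NumberField M] [IsGalois ℚ M] (g : M ≃ₐ[ℚ] M) (S : Finset ℕ),
    ∃ (ℓ : ℕ) (w : IsDedekindDomain.HeightOneSpectrum (𝓞 M)), ℓ.Prime ∧ ℓ ∉ S ∧
      (ℓ : 𝓞 M) ∈ w.asIdeal ∧ Algebra.IsUnramifiedAt ℤ w.asIdeal ∧
      ∀ σ : M ≃ₐ[ℚ] M, (∀ x : 𝓞 M, σ • x - x ^ ℓ ∈ w.asIdeal) → g ∈ Subgroup.zpowers σ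

end Fermat.Agent.Lib.WeakCheb
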