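/-
P5 [G4] weak Chebotarev, part 4 (helper7): the finite-level theorem.

In a finite Galois extension `M / ℚ`, for every `g ∈ Gal(M/ℚ)` and every finite set `S` there is a
prime `w` of `M`, unramified over `ℚ`, with residue characteristic outside `S`, whose Frobenius
generates the same cyclic subgroup as `g`.  Hence `frobGenStmt : FrobGenStmt`.
-/
import Mathlib
import Fermat.Agent.Lib.WeakCheb.Plan
import Fermat.Agent.Lib.WeakCheb.Mobius
import Fermat.Agent.Lib.WeakCheb.Count
import Fermat.Agent.Lib.WeakCheb.Analytic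

set_option autoImplicit false
set_option linter.unusedSectionVars false

namespace Fermat.Agent.Lib.WeakCheb

open NumberField IsDedekindDomain

section

variable (M : Type*) [Field M] [NumberField M] [IsGalois ℚ M]

/-- Only finitely many primes of `M` are ramified over `ℚ`. -/
theorem finite_not_unram : {w : HeightOneSpectrum (𝓞 M) | ¬ Unram w}.Finite := by
  have h1 : {w : HeightOneSpectrum (𝓞 M) | ¬ Unram w} ⊆
      {w : HeightOneSpectrum (𝓞 M) | w.asIdeal ∣ differentIdeal ℤ (𝓞 M)} := by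
    intro w hw
    exact dvd_differentIdeal_iff.mpr hw
  exact (Ideal.finite_factors differentIdeal_ne_bot).subset h1

open scoped Classical in
/-- The class weight: the weighted sum over the primes above `R` with Frobenius `x`. -/
noncomputable def aSum (s : ℝ) (R : Finset ℕ) (x : M ≃ₐ[ℚ] M) : ℝ :=
  ∑ w ∈ (primesChr M R).filter (fun w => frob w = x), wt w s

variable {M}

theorem sum_cyc_aSum (s : ℝ) (R : Finset ℕ) (hR : GoodSet M R) (hRp : ∀ ℓ ∈ R, ℓ.Prime)
    (y : M ≃ₐ[ℚ] M) :
    ∑ x ∈ cyc y, aSum M s R x = (orderOf y : ℝ) * dSum (fixF (Subgroup.zpowers y)) s R := by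
  classical
  rw [← Nat.card_zpowers, ← sum_wt_frob_mem (Subgroup.zpowers y) s R hR hRp]
  have hmaps : ∀ w ∈ (primesChr M R).filter (fun w => frob w ∈ Subgroup.zpowers y),
      frob w ∈ cyc y := by
    intro w hw
    rw [mem_cyc]
    exact (Finset.mem_filter.mp hw).2
  rw [← Finset.sum_fiberwise_of_maps_to hmaps]
  apply Finset.sum_congr rfl
  intro x hx
  rw [mem_cyc] at hx
  rw [aSum, Finset.filter_filter]
  apply Finset.sum_congr _ fun _ _ => rfl
  ext w
  simp only [Finset.mem_filter]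
  constructor
  · rintro ⟨h1, h2⟩
    exact ⟨h1, h2 ▸ hx, h2⟩
  · rintro ⟨h1, -, h2⟩
    exact ⟨h1, h2⟩

/-- **Finite-level weak Chebotarev**: some unramified prime outside `S` has a Frobenius generating
the same cyclic subgroup as `g`. -/
theorem exists_frob_gens (g : M ≃ₐ[ℚ] M) (S : Finset ℕ) :
    ∃ w : HeightOneSpectrum (𝓞 M), Unram w ∧ chr w ∉ S ∧
      Subgroup.zpowers (frob w) = Subgroup.zpowers g := by
  classical
  -- the bad primes
  set Bram : Finset ℕ := (finite_not_unram M).toFinset.image chr with hBram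
  set B : Finset ℕ := S ∪ Bram with hB
  have hgood : ∀ R : Finset ℕ, (∀ ℓ ∈ R, ℓ ∉ B) → GoodSet M R := by
    intro R hRB w hw
    by_contra hun
    apply hRB _ hw
    rw [hB, Finset.mem_union]
    right
    rw [hBram]
    exact Finset.mem_image_of_mem chr ((Set.Finite.mem_toFinset _).mpr hun)
  -- the constants
  choose CU hCU using fun x : M ≃ₐ[ℚ] M => exists_dSum_le (fixF (Subgroup.zpowers x))
  choose CL hCL using fun x : M ≃ₐ[ℚ] M => exists_le_dSum (fixF (Subgroup.zpowers x)) B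
  set c : ℝ := ∑ x : M ≃ₐ[ℚ] M, (orderOf x : ℝ) * (|CU x| + |CL x|) with hc
  have hterm : ∀ x : M ≃ₐ[ℚ] M, 0 ≤ (orderOf x : ℝ) * (|CU x| + |CL x|) := fun x =>
    mul_nonneg (Nat.cast_nonneg _) (add_nonneg (abs_nonneg _) (abs_nonneg _))
  have hc0 : 0 ≤ c := Finset.sum_nonneg fun x _ => hterm x
  set N : ℝ := (Fintype.card (M ≃ₐ[ℚ] M) : ℝ) + 1 with hN
  have hN0 : 0 ≤ N := by
    have : (0 : ℝ) ≤ (Fintype.card (M ≃ₐ[ℚ] M) : ℝ) := Nat.cast_nonneg _
    linarith
  set c' : ℝ := c * N ^ orderOf g with hc'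
  have hc'0 : 0 ≤ c' := mul_nonneg hc0 (pow_nonneg hN0 _)
  -- the choice of `s`
  set s : ℝ := 1 + Real.exp (-(c' + 1)) with hs
  have hs1 : 1 < s := by
    have := Real.exp_pos (-(c' + 1))
    linarith
  have hs2 : s ≤ 2 := by
    have : Real.exp (-(c' + 1)) ≤ 1 := Real.exp_le_one_iff.mpr (by linarith)
    linarith
  have hlam : Real.log (1 / (s - 1)) = c' + 1 := by
    have : s - 1 = Real.exp (-(c' + 1)) := by rw [hs]; ring
    rw [this, one_div, ← Real.exp_neg, neg_neg, Real.log_exp]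
  set lam : ℝ := Real.log (1 / (s - 1)) with hlamdef
  -- the finite set of primes
  choose Rx hRx using fun x : M ≃ₐ[ℚ] M => hCL x s hs1 hs2
  set R : Finset ℕ := Finset.univ.biUnion Rx with hRdef
  have hRmem : ∀ ℓ ∈ R, ℓ.Prime ∧ ℓ ∉ B := by
    intro ℓ hℓ
    obtain ⟨x, -, hx⟩ := Finset.mem_biUnion.mp hℓ
    exact (hRx x).1 ℓ hx
  have hRp : ∀ ℓ ∈ R, ℓ.Prime := fun ℓ hℓ => (hRmem ℓ hℓ).1
  have hRgood : GoodSet M R := hgood R fun ℓ hℓ => (hRmem ℓ hℓ).2
  -- the two-sided bound on every cyclic subgroup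
  have hbound : ∀ y : M ≃ₐ[ℚ] M,
      |∑ x ∈ cyc y, aSum M s R x - (orderOf y : ℝ) * lam| ≤ c := by
    intro y
    rw [sum_cyc_aSum s R hRgood hRp y]
    have hU : dSum (fixF (Subgroup.zpowers y)) s R ≤ lam + CU y := hCU y s hs1 hs2 R
    have hL : lam - CL y ≤ dSum (fixF (Subgroup.zpowers y)) s R :=
      (hRx y).2.trans (dSum_mono _ s (Finset.subset_biUnion_of_mem Rx (Finset.mem_univ y)))
    have ho : (0 : ℝ) ≤ (orderOf y : ℝ) := Nat.cast_nonneg _
    have h1 : |(orderOf y : ℝ) * dSum (fixF (Subgroup.zpowers y)) s R - (orderOf y : ℝ) * lam|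
        ≤ (orderOf y : ℝ) * (|CU y| + |CL y|) := by
      rw [← mul_sub, abs_mul, abs_of_nonneg ho]
      apply mul_le_mul_of_nonneg_left _ ho
      rw [abs_le]
      constructor
      · have := le_abs_self (CL y)
        have := abs_nonneg (CU y)
        linarith
      · have := le_abs_self (CU y)
        have := abs_nonneg (CL y)
        linarith
    exact h1.trans (Finset.single_le_sum (fun x _ => hterm x) (Finset.mem_univ y))
  -- Möbius inversion
  have hmob := abs_sum_gens_le (fun x => aSum M s R x) lam c hc0 hbound g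
  have hcard : (1 : ℝ) ≤ ((gens g).card : ℝ) := by
    exact_mod_cast Finset.card_pos.mpr ⟨g, self_mem_gens g⟩
  have hlam0 : 0 ≤ lam := by rw [hlam]; linarith
  have hpos : 0 < ∑ x ∈ gens g, aSum M s R x := by
    have h1 := (abs_le.mp hmob).1
    have h2 : lam ≤ ((gens g).card : ℝ) * lam := le_mul_of_one_le_left hlam0 hcard
    have h3 : c * N ^ orderOf g = c' := rfl
    rw [h3] at h1
    rw [hlam] at h2 h1
    linarith
  obtain ⟨x, hx, hax⟩ : ∃ x ∈ gens g, 0 < aSum M s R x := by
    by_contra hcon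
    have hcon' : ∀ x ∈ gens g, aSum M s R x ≤ 0 := fun x hx =>
      not_lt.mp fun h => hcon ⟨x, hx, h⟩
    exact absurd (Finset.sum_nonpos hcon') (not_le.mpr hpos)
  obtain ⟨w, hw⟩ : ((primesChr M R).filter (fun w => frob w = x)).Nonempty := by
    by_contra hne
    rw [Finset.not_nonempty_iff_eq_empty] at hne
    rw [aSum, hne, Finset.sum_empty] at hax
    exact lt_irrefl _ hax
  rw [Finset.mem_filter, mem_primesChr] at hw
  refine ⟨w, hRgood w hw.1, ?_, ?_⟩
  · intro hS
    apply (hRmem _ hw.1).2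
    rw [hB, Finset.mem_union]
    exact Or.inl hS
  · rw [hw.2]
    exact mem_gens.mp hx

end

/-- The finite-level interface `FrobGenStmt` of `Lib/WeakCheb/Plan.lean` holds. -/
theorem frobGenStmt : FrobGenStmt := by
  intro M _ _ _ g S
  obtain ⟨w, hun, hS, hz⟩ := exists_frob_gens g S
  refine ⟨chr w, w, chr_prime w, hS, natCast_chr_mem w, hun, fun σ hσ => ?_⟩
  rw [eq_frob_of_unram w hun σ hσ, hz]
  exact Subgroup.mem_zpowers g

end Fermat.Agent.Lib.WeakCheb
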