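/-
P5 [G4] weak Chebotarev — CLOSED (helper7 + helper53).

`weakChebotarev : Fermat.Agent.P5.WeakChebLift.WeakChebStmt` is helper53's lift
`weakChebotarev_of_frobGen` applied to helper7's finite-level theorem `frobGenStmt`.
-/
import Mathlib
import Fermat.Agent.Lib.WeakCheb.Main
import Fermat.Agent.P5.WeakChebFrobGen

set_option autoImplicit false

namespace Fermat.Agent.Lib.WeakCheb

/-- **Weak Chebotarev** (P5 [G4], Directive 6 text): for a finite Galois `M / ℚ` inside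
`AlgebraicClosure ℚ`, every `g ∈ Gal(Q̄/ℚ)` and every finite set `S`, there are a prime `ℓ ∉ S`, a
valuation subring `A` over `ℓ`, a Frobenius lift `σ` at `A` and `j : ℕ` with `σ ^ j = g` on `M`. -/
theorem weakChebotarev : Fermat.Agent.P5.WeakChebLift.WeakChebStmt :=
  Fermat.Agent.P5.WeakChebLift.weakChebotarev_of_frobGen frobGenStmt

/-- The same statement, spelled out. -/
theorem weakChebotarev' (M : IntermediateField ℚ (AlgebraicClosure ℚ)) [FiniteDimensional ℚ M]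
    [IsGalois ℚ M] (g : AlgebraicClosure ℚ ≃ₐ[ℚ] AlgebraicClosure ℚ) (S : Finset ℕ) :
    ∃ ℓ : ℕ, ℓ.Prime ∧ ℓ ∉ S ∧ ∃ A : ValuationSubring (AlgebraicClosure ℚ), A.LiesOverPrime ℓ ∧
      ∃ σ : AlgebraicClosure ℚ ≃ₐ[ℚ] AlgebraicClosure ℚ, A.IsFrobeniusAt σ ℓ ∧
        ∃ j : ℕ, ∀ x ∈ M, (σ ^ j) x = g x :=
  weakChebotarev M g S

end Fermat.Agent.Lib.WeakCheb
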